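import Fermat.Agent.A2.ModDefs
import Fermat.Agent.A2.Mod.H549.L14

/-!
# A2 / MODASM, the `τ`-fields of `ModSSData` (helper549)

The three inertia fields `hτx`, `hτf`, `hτi` of `A2.ModSSData` (frozen `A2/ModDefs.lean`) from
leaf L14 (`Mod.H549.inertia`) and the two-component `q`-expansion principle of the chart
(`H48.GaussPair.qep2` shape).

* `chart_stable` : a semilinear automorphism fixing `x` preserves the integral closure of `R[x]`.
* `tau_sub_mem_chart` : abstract form: `τ ≡ id` modulo `w` on `V₁`, `V₂`, chart `B ⊆ V₁ ∩ V₂` with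
  `B ∩ w (V₁ ∩ V₂) = w B` ⟹ `τ b - b ∈ w B` for `b ∈ B`.
* `inertia_comap` : L14 for `V₀ = V∞.comap W`.
* `tau_xE` : `τ (j · j_q) = j · j_q`.
* `tau_field` : the field `hτf` (= `hτi`) of `ModSSData`, for every chart.
-/

set_option autoImplicit false

noncomputable section

namespace Fermat.Agent.A2.Mod.H549

open ModularCurve HahnSeries Fermat.Agent.A2

/-! ## Chart stability (Mathlib only) -/

section chart

variable {R F : Type*} [CommRing R] [Field F] [Algebra R F]

/-- A ring endomorphism `T` of `F`, semilinear over `τR : R →+* R`, fixing `x`, preserves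
integrality over `R[x]`. -/
theorem chart_stable (T : F →+* F) (τR : R →+* R)
    (hT : ∀ r : R, T (algebraMap R F r) = algebraMap R F (τR r))
    (S : Set F) (hS : ∀ s ∈ S, T s ∈ Algebra.adjoin R S) {f : F}
    (hf : IsIntegral (Algebra.adjoin R S) f) : IsIntegral (Algebra.adjoin R S) (T f) := by
  have hmem : ∀ s ∈ Algebra.adjoin R S, T s ∈ Algebra.adjoin R S := by
    intro s hs
    induction hs using Algebra.adjoin_induction with
    | mem y hy => exact hS y hy
    | algebraMap r =>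
        rw [hT]
        exact Subalgebra.algebraMap_mem _ _
    | add y z _ _ hy hz =>
        rw [map_add]
        exact Subalgebra.add_mem _ hy hz
    | mul y z _ _ hy hz =>
        rw [map_mul]
        exact Subalgebra.mul_mem _ hy hz
  let φ : Algebra.adjoin R S →+* Algebra.adjoin R S :=
    { toFun := fun s => ⟨T s, hmem s s.2⟩
      map_one' := Subtype.ext (map_one T)
      map_mul' := fun a b => Subtype.ext (map_mul T (a : F) (b : F))
      map_zero' := Subtype.ext (map_zero T)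
      map_add' := fun a b => Subtype.ext (map_add T (a : F) (b : F)) }
  exact IsIntegral.map_of_comp_eq φ T (RingHom.ext fun _ => rfl) hf

/-- Abstract form of `τ ≡ id mod w` on a chart. -/
theorem tau_sub_mem_chart (T : F →+* F) (B : Subalgebra R F) (hTB : ∀ b ∈ B, T b ∈ B)
    (V₁ V₂ : ValuationSubring F) (hB₁ : ∀ b ∈ B, b ∈ V₁) (hB₂ : ∀ b ∈ B, b ∈ V₂)
    (w : R) (hw0 : algebraMap R F w ≠ 0)
    (hqep : ∀ u ∈ B, u * (algebraMap R F w)⁻¹ ∈ V₁ → u * (algebraMap R F w)⁻¹ ∈ V₂ →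
      u * (algebraMap R F w)⁻¹ ∈ B)
    (hτ₁ : ∀ f ∈ V₁, (T f - f) * (algebraMap R F w)⁻¹ ∈ V₁)
    (hτ₂ : ∀ f ∈ V₂, (T f - f) * (algebraMap R F w)⁻¹ ∈ V₂) :
    ∀ b ∈ B, ∃ c ∈ B, T b - b = algebraMap R F w * c := by
  intro b hb
  refine ⟨(T b - b) * (algebraMap R F w)⁻¹,
    hqep _ (B.sub_mem (hTB b hb) hb) (hτ₁ b (hB₁ b hb)) (hτ₂ b (hB₂ b hb)), ?_⟩
  rw [mul_comm, mul_assoc, inv_mul_cancel₀ hw0, mul_one]

end chart

/-! ## The modular case -/

section modular

variable (P : ValuationSubring Qb) (E : IntermediateField ℚ Qb) (N : ℕ)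

/-- **L14 for `V₀ = V∞.comap W`.** -/
theorem inertia_comap (w : RE P E) (hN : N ≠ 0) (hdvr : IsDiscreteValuationRing (RE P E))
    (hw : Irreducible w) (V : ValuationSubring (FE E N)) (W : FE E N ≃ₐ[E] FE E N)
    (hV : Mod.IsVinf P E N V) (hW : Mod.IsFricke E N W)
    (τ : Qb ≃ₐ[ℚ] Qb) (τE : E ≃ₐ[ℚ] E) (hτE : ∀ e : E, ((τE e : E) : Qb) = τ (e : Qb))
    (hτ : τ ∈ P.inertiaSubgroupIn ℚ) :
    ∀ f ∈ V.comap (W : FE E N →+* FE E N),
      (arithmeticRingAut (modularFunctionFieldFull N) τE f - f) *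
        (algebraMap E (FE E N) (w : E))⁻¹ ∈ V.comap (W : FE E N →+* FE E N) := by
  obtain ⟨hcomm, htriv⟩ := inertia_core P E w N hN hdvr hw V W hV hW.1 τ τE hτE hτ
  intro f hf
  rw [ValuationSubring.mem_comap] at hf ⊢
  have h1 := htriv (W f) hf
  have e : (W : FE E N →+* FE E N) ((arithmeticRingAut (modularFunctionFieldFull N) τE f - f) *
        (algebraMap E (FE E N) (w : E))⁻¹)
      = (arithmeticRingAut (modularFunctionFieldFull N) τE (W f) - W f) *
        (algebraMap E (FE E N) (w : E))⁻¹ := by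
    rw [map_mul, map_sub, map_inv₀]
    show (W (arithmeticRingAut (modularFunctionFieldFull N) τE f) - W f) *
        (W (algebraMap E (FE E N) (w : E)))⁻¹ = _
    rw [AlgEquiv.commutes, hcomm]
  rw [e]
  exact h1

/-- `τ` fixes `j_d`. -/
theorem tau_jE (τE : E ≃ₐ[ℚ] E) (d : ℕ) [NeZero d] (hd : d ∣ N) :
    arithmeticRingAut (modularFunctionFieldFull N) τE (Mod.jE E N d hd) = Mod.jE E N d hd :=
  Subtype.ext (coeffMap_coeffEmb τE _)

/-- `τ` fixes the coordinate `x = j · j_q`. -/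
theorem tau_xE (M q : ℕ) [NeZero M] [NeZero q] (τE : E ≃ₐ[ℚ] E) :
    arithmeticRingAut (modularFunctionFieldFull (M * q)) τE (Mod.xE E M q) = Mod.xE E M q := by
  rw [Mod.xE, map_mul, tau_jE, tau_jE]

/-- The restriction of `τ` (in the inertia group of `P`) to `E` preserves `R_E = P ∩ E`. -/
theorem res_mem_RE (τ : Qb ≃ₐ[ℚ] Qb) (τE : E ≃ₐ[ℚ] E)
    (hτE : ∀ e : E, ((τE e : E) : Qb) = τ (e : Qb)) (hτ : τ ∈ P.inertiaSubgroupIn ℚ) :
    ∀ a ∈ RE P E, τE a ∈ RE P E := by
  intro a ha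
  rw [ValuationSubring.mem_comap] at ha ⊢
  have e : algebraMap E Qb (τE a) = τ (algebraMap E Qb a) := hτE a
  rw [e]
  exact H708.apply_mem_of_mem_decomposition P (H708.mem_decomposition_of_mem_inertiaIn P hτ) ha

/-- **The `τ`-field of a chart** (`ModSSData.hτf`, `ModSSData.hτi`): for a chart `B` = integral
closure of `R_E[x]` in `F_{N,E}` with `τ x = x`, contained in `V∞` and `V₀ = V∞.comap W` and
satisfying the two-component `q`-expansion principle, `τ b - b ∈ w B` for all `b ∈ B`. -/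
theorem tau_field (w : RE P E) (hN : N ≠ 0) (hdvr : IsDiscreteValuationRing (RE P E))
    (hw : Irreducible w) (V : ValuationSubring (FE E N)) (W : FE E N ≃ₐ[E] FE E N)
    (hV : Mod.IsVinf P E N V) (hW : Mod.IsFricke E N W)
    (x : FE E N) (B : Subalgebra (RE P E) (FE E N))
    (hB : ∀ f : FE E N, f ∈ B ↔ IsIntegral (Algebra.adjoin (RE P E) ({x} : Set (FE E N))) f)
    (hB₁ : ∀ b ∈ B, b ∈ V) (hB₂ : ∀ b ∈ B, W b ∈ V)
    (hqep : ∀ u ∈ B, u * (algebraMap (RE P E) (FE E N) w)⁻¹ ∈ V →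
      W (u * (algebraMap (RE P E) (FE E N) w)⁻¹) ∈ V →
      u * (algebraMap (RE P E) (FE E N) w)⁻¹ ∈ B)
    (τ : Qb ≃ₐ[ℚ] Qb) (τE : E ≃ₐ[ℚ] E) (hτE : ∀ e : E, ((τE e : E) : Qb) = τ (e : Qb))
    (hτ : τ ∈ P.inertiaSubgroupIn ℚ)
    (hτx : arithmeticRingAut (modularFunctionFieldFull N) τE x = x ∨
      arithmeticRingAut (modularFunctionFieldFull N) τE x⁻¹ = x⁻¹) :
    ∀ b ∈ B, ∃ c ∈ B, arithmeticRingAut (modularFunctionFieldFull N) τE b - b =
      algebraMap (RE P E) (FE E N) w * c := by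
  have hτx' : arithmeticRingAut (modularFunctionFieldFull N) τE x = x := by
    rcases hτx with h | h
    · exact h
    · rw [map_inv₀] at h
      exact inv_injective h
  have hR := res_mem_RE P E τ τE hτE hτ
  have hstab : ∀ b ∈ B, arithmeticRingAut (modularFunctionFieldFull N) τE b ∈ B := by
    intro b hb
    rw [hB] at hb ⊢
    refine chart_stable
      ((arithmeticRingAut (modularFunctionFieldFull N) τE : FE E N ≃+* FE E N) :
        FE E N →+* FE E N) (resA (RE P E) τE hR) ?_ _ ?_ hb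
    · intro r
      exact arithmeticRingAut_algebraMap (modularFunctionFieldFull N) τE (r : E)
    · intro s hs
      rw [Set.mem_singleton_iff] at hs
      subst hs
      show arithmeticRingAut (modularFunctionFieldFull N) τE s ∈ _
      rw [hτx']
      exact Algebra.subset_adjoin rfl
  have hw0 : algebraMap (RE P E) (FE E N) w ≠ 0 := by
    intro h
    have h1 : algebraMap E (FE E N) (w : E) = 0 := h
    rw [map_eq_zero] at h1
    exact hw.ne_zero (Subtype.ext h1)
  obtain ⟨-, htriv⟩ := inertia_core P E w N hN hdvr hw V W hV hW.1 τ τE hτE hτ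
  have htriv₀ := inertia_comap P E N w hN hdvr hw V W hV hW τ τE hτE hτ
  exact tau_sub_mem_chart
    ((arithmeticRingAut (modularFunctionFieldFull N) τE : FE E N ≃+* FE E N) :
      FE E N →+* FE E N) B hstab V (V.comap (W : FE E N →+* FE E N)) hB₁ hB₂ w hw0
    hqep htriv htriv₀

/-- **`ModSSData.hτf` / `ModSSData.hτi`, exact field shape.**  `x` (or `x⁻¹`) the coordinate of
the chart `B`, fixed by the Galois action. -/
theorem tau_field_res (hN : N ≠ 0) (V : ValuationSubring (FE E N)) (W : FE E N ≃ₐ[E] FE E N)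
    (hV : Mod.IsVinf P E N V) (hW : Mod.IsFricke E N W)
    (x : FE E N) (B : Subalgebra (RE P E) (FE E N))
    (hB : ∀ f : FE E N, f ∈ B ↔ IsIntegral (Algebra.adjoin (RE P E) ({x} : Set (FE E N))) f)
    (hB₁ : ∀ b ∈ B, b ∈ V) (hB₂ : ∀ b ∈ B, W b ∈ V)
    (hqep : ∀ w : RE P E, Irreducible w → ∀ u ∈ B,
      u * (algebraMap (RE P E) (FE E N) w)⁻¹ ∈ V →
      W (u * (algebraMap (RE P E) (FE E N) w)⁻¹) ∈ V →
      u * (algebraMap (RE P E) (FE E N) w)⁻¹ ∈ B)
    (hτx : ∀ τE : E ≃ₐ[ℚ] E, arithmeticRingAut (modularFunctionFieldFull N) τE x = x ∨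
      arithmeticRingAut (modularFunctionFieldFull N) τE x⁻¹ = x⁻¹) :
    ∀ (hE : GoodField P E) (τ : Qb ≃ₐ[ℚ] Qb) (hτ : τ ∈ P.inertiaSubgroupIn ℚ)
      (w : RE P E), Irreducible w → ∀ b ∈ B, ∃ c ∈ B,
        arithmeticRingAut (modularFunctionFieldFull N) (hE.res τ hτ) b - b =
          algebraMap (RE P E) (FE E N) w * c :=
  fun hE τ hτ w hw =>
    tau_field P E N w hN hE.dvr hw V W hV hW x B hB hB₁ hB₂ (hqep w hw) τ (hE.res τ hτ)
      (fun _ => rfl) hτ (hτx _)

/-- **`ModSSData.hτx`, exact field shape**, for the coordinate `x = j · j_q`. -/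
theorem tau_x_res (M q : ℕ) [NeZero M] [NeZero q] :
    ∀ (hE : GoodField P E) (τ : Qb ≃ₐ[ℚ] Qb) (hτ : τ ∈ P.inertiaSubgroupIn ℚ),
      arithmeticRingAut (modularFunctionFieldFull (M * q)) (hE.res τ hτ) (Mod.xE E M q)
        = Mod.xE E M q :=
  fun hE τ hτ => tau_xE E M q (hE.res τ hτ)

end modular

end Fermat.Agent.A2.Mod.H549
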